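import Fermat.Agent.KroneckerLimit.Eta
import Mathlib.NumberTheory.Harmonic.ZetaAsymp
import Mathlib.NumberTheory.ZetaValues
import Mathlib.Analysis.Normed.Group.Tannery

/-!
# Kronecker's first limit formula

With `τ = x + i y` and `E τ s = ∑' (y / |m τ + n|²) ^ s` the difference `E τ s - π / (s - 1)` tends,
for `s` decreasing to one, to `2 π (γ - log 2 - log (√y |η τ|²))`.
-/

set_option autoImplicit false

noncomputable section

open MeasureTheory Filter Topology Set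
open scoped Real UpperHalfPlane

namespace FA.KroneckerLimit

/-- The Epstein zeta function; the term at the origin is zero. -/
def epstein (τ : ℍ) (s : ℝ) : ℝ :=
  ∑' v : ℤ × ℤ, (τ.im / Complex.normSq ((v.1 : ℂ) * τ + v.2)) ^ s

/-- `∑_{n} 1 / (n + 1) ^ s`. -/
def zetaReal (s : ℝ) : ℝ := ∑' n : ℕ, 1 / ((n : ℝ) + 1) ^ s

theorem summable_zetaReal {s : ℝ} (hs : 1 < s) :
    Summable fun n : ℕ => 1 / ((n : ℝ) + 1) ^ s := by
  have h := (summable_nat_add_iff 1).2 (Real.summable_one_div_nat_rpow.2 hs)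
  simpa using h

theorem epstein_term (τ : ℍ) (s : ℝ) (m n : ℤ) :
    (τ.im / Complex.normSq ((m : ℂ) * τ + n)) ^ s =
      τ.im ^ s * ((((n : ℝ) + m * τ.re) ^ 2 + (|(m : ℝ)| * τ.im) ^ 2) ^ s)⁻¹ := by
  have e : Complex.normSq ((m : ℂ) * τ + n) =
      ((n : ℝ) + m * τ.re) ^ 2 + (|(m : ℝ)| * τ.im) ^ 2 := by
    rw [Complex.normSq_apply, mul_pow (|(m : ℝ)|), sq_abs]
    simp only [Complex.add_re, Complex.mul_re, Complex.intCast_re, Complex.intCast_im,
      Complex.add_im, Complex.mul_im, UpperHalfPlane.coe_re, UpperHalfPlane.coe_im]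
    ring
  rw [e, Real.div_rpow τ.im_pos.le (by positivity), div_eq_mul_inv]

theorem epstein_row_ne (τ : ℍ) (s : ℝ) {m : ℤ} (hm : m ≠ 0) (n : ℤ) :
    (τ.im / Complex.normSq ((m : ℂ) * τ + n)) ^ s =
      τ.im ^ s * rowTerm (m * τ.re) (|(m : ℝ)| * τ.im) s n := by
  have hb : 0 < |(m : ℝ)| * τ.im := mul_pos (abs_pos.2 (Int.cast_ne_zero.2 hm)) τ.im_pos
  rw [epstein_term, rowTerm, Real.rpow_neg (rowBase_pos hb _).le]

theorem hasSum_row_zero (τ : ℍ) {s : ℝ} (hs : 1 < s) :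
    HasSum (fun n : ℤ => (τ.im / Complex.normSq (((0 : ℤ) : ℂ) * τ + n)) ^ s)
      (2 * (τ.im ^ s * zetaReal (2 * s))) := by
  have hterm : ∀ n : ℕ, (τ.im / Complex.normSq (((0 : ℤ) : ℂ) * τ + ((n + 1 : ℕ) : ℤ))) ^ s =
      τ.im ^ s * (1 / ((n : ℝ) + 1) ^ (2 * s)) := fun n => by
    rw [epstein_term, Real.rpow_mul (by positivity), Real.rpow_two]
    simp
  have hneg : ∀ n : ℕ, (τ.im / Complex.normSq (((0 : ℤ) : ℂ) * τ + (-((n + 1 : ℕ) : ℤ) : ℤ))) ^ s =
      τ.im ^ s * (1 / ((n : ℝ) + 1) ^ (2 * s)) := fun n => by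
    rw [epstein_term, Real.rpow_mul (by positivity), Real.rpow_two]
    simp
    left; ring_nf
  have hZ := ((summable_zetaReal (show 1 < 2 * s by linarith)).hasSum).mul_left (τ.im ^ s)
  set F : ℤ → ℝ := fun n => (τ.im / Complex.normSq (((0 : ℤ) : ℂ) * τ + n)) ^ s with hF
  have h1 : HasSum (fun n : ℕ => F ((n : ℤ) + 1)) (τ.im ^ s * zetaReal (2 * s)) :=
    hZ.congr_fun fun n => by simp only [hF]; exact_mod_cast hterm n
  have h2 : HasSum (fun n : ℕ => F (-((n : ℤ) + 1))) (τ.im ^ s * zetaReal (2 * s)) :=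
    hZ.congr_fun fun n => by simp only [hF]; exact_mod_cast hneg n
  have h := HasSum.of_add_one_of_neg_add_one (f := F) h1 h2
  have h0 : F 0 = 0 := by simp [hF, Real.zero_rpow (by linarith : s ≠ 0)]
  rw [h0, add_zero] at h
  rw [two_mul]
  exact h

/-- The deviation of a row from its integral. -/
def rowDefect (τ : ℍ) (k : ℕ) (s : ℝ) : ℝ :=
  rowSum (((k + 1 : ℕ) : ℝ) * τ.re) (((k + 1 : ℕ) : ℝ) * τ.im) s -
    (((k + 1 : ℕ) : ℝ) * τ.im) ^ (1 - 2 * s) * lineIntegral s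

theorem rowSum_neg (a b s : ℝ) : rowSum (-a) b s = rowSum a b s := by
  rw [rowSum, rowSum, ← (Equiv.neg ℤ).tsum_eq]
  refine tsum_congr fun n => ?_
  simp only [rowTerm, Equiv.neg_apply, Int.cast_neg]
  ring_nf

theorem lineIntegral_le_pi {s : ℝ} (hs : 1 ≤ s) : lineIntegral s ≤ π := by
  rw [← lineIntegral_one]
  refine integral_mono (integrable_one_add_sq (by linarith)) (integrable_one_add_sq (by norm_num))
    fun t => Real.rpow_le_rpow_of_exponent_le (le_add_of_nonneg_right (sq_nonneg t)) (by linarith)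

theorem abs_rowDefect_le (τ : ℍ) (k : ℕ) {s : ℝ} (hs : 1 ≤ s) (hs2 : s ≤ 2) :
    |rowDefect τ k s| ≤
      (2 * π * max 1 (τ.im⁻¹) ^ 4) * (1 / ((k + 1 : ℕ) : ℝ) ^ 2) := by
  have hm : (0 : ℝ) < ((k + 1 : ℕ) : ℝ) := Nat.cast_pos.2 k.succ_pos
  have hm1 : (1 : ℝ) ≤ ((k + 1 : ℕ) : ℝ) := Nat.one_le_cast.2 k.succ_pos
  have hy := τ.im_pos
  refine (abs_rowSum_sub_le (mul_pos hm hy) (by linarith)).trans ?_
  rw [Real.mul_rpow hm.le hy.le, Real.rpow_neg hm.le, Real.rpow_neg hy.le,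
    ← Real.inv_rpow hy.le, one_div]
  have h1 : s * lineIntegral s ≤ 2 * π :=
    mul_le_mul hs2 (lineIntegral_le_pi hs) (lineIntegral_nonneg s) (by norm_num)
  have h2 : ((((k + 1 : ℕ) : ℝ)) ^ (2 * s))⁻¹ ≤ ((((k + 1 : ℕ) : ℝ)) ^ 2)⁻¹ := by
    refine inv_anti₀ (by positivity) ?_
    rw [← Real.rpow_two]
    exact Real.rpow_le_rpow_of_exponent_le hm1 (by linarith)
  have h3 : (τ.im⁻¹) ^ (2 * s) ≤ max 1 (τ.im⁻¹) ^ 4 := by
    refine (Real.rpow_le_rpow (by positivity) (le_max_right 1 _) (by linarith)).trans ?_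
    rw [show max 1 (τ.im⁻¹) ^ 4 = max 1 (τ.im⁻¹) ^ ((4 : ℕ) : ℝ) by rw [Real.rpow_natCast]]
    exact Real.rpow_le_rpow_of_exponent_le (le_max_left _ _) (by push_cast; linarith)
  calc s * lineIntegral s * (((((k + 1 : ℕ) : ℝ)) ^ (2 * s))⁻¹ * (τ.im⁻¹) ^ (2 * s))
      ≤ 2 * π * (((((k + 1 : ℕ) : ℝ)) ^ 2)⁻¹ * max 1 (τ.im⁻¹) ^ 4) := by
        refine mul_le_mul h1 (mul_le_mul h2 h3 (by positivity) (by positivity)) (by positivity)
          (by positivity)
    _ = _ := by ring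

theorem summable_defect_bound (τ : ℍ) :
    Summable fun k : ℕ => (2 * π * max 1 (τ.im⁻¹) ^ 4) * (1 / ((k + 1 : ℕ) : ℝ) ^ 2) := by
  refine Summable.mul_left _ ?_
  exact (summable_nat_add_iff (f := fun n : ℕ => 1 / (n : ℝ) ^ 2) 1).2
    (Real.summable_one_div_nat_pow.2 one_lt_two)

theorem hasSum_rows (τ : ℍ) {s : ℝ} (hs : 1 < s) (hs2 : s ≤ 2) :
    HasSum (fun k : ℕ => rowSum (((k + 1 : ℕ) : ℝ) * τ.re) (((k + 1 : ℕ) : ℝ) * τ.im) s)
      ((∑' k, rowDefect τ k s) + τ.im ^ (1 - 2 * s) * lineIntegral s * zetaReal (2 * s - 1)) := by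
  have hd : Summable fun k => rowDefect τ k s :=
    Summable.of_norm_bounded (summable_defect_bound τ) fun k => abs_rowDefect_le τ k hs.le hs2
  have hz := ((summable_zetaReal (show 1 < 2 * s - 1 by linarith)).hasSum).mul_left
    (τ.im ^ (1 - 2 * s) * lineIntegral s)
  refine (hd.hasSum.add hz).congr_fun fun k => ?_
  rw [rowDefect, Real.mul_rpow (by positivity) τ.im_pos.le,
    show (1 : ℝ) - 2 * s = -(2 * s - 1) by ring,
    Real.rpow_neg (Nat.cast_nonneg (k + 1)), Nat.cast_succ]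
  ring

theorem summable_epstein (τ : ℍ) {s : ℝ} (hs : 1 < s) (hs2 : s ≤ 2) :
    Summable (fun v : ℤ × ℤ => (τ.im / Complex.normSq ((v.1 : ℂ) * τ + v.2)) ^ s) ∧
      epstein τ s = 2 * (τ.im ^ s * zetaReal (2 * s)) + 2 * (τ.im ^ s * ((∑' k, rowDefect τ k s) +
        τ.im ^ (1 - 2 * s) * lineIntegral s * zetaReal (2 * s - 1))) := by
  set F : ℤ × ℤ → ℝ := fun v => (τ.im / Complex.normSq ((v.1 : ℂ) * τ + v.2)) ^ s with hF
  have hnn : ∀ v, 0 ≤ F v := fun v =>
    Real.rpow_nonneg (div_nonneg τ.im_pos.le (Complex.normSq_nonneg _)) _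
  set R : ℤ → ℝ := fun m => ∑' n : ℤ, F (m, n) with hR
  have hrow : ∀ m : ℤ, Summable fun n : ℤ => F (m, n) := fun m => by
    rcases eq_or_ne m 0 with rfl | hm
    · exact (hasSum_row_zero τ hs).summable
    · refine ((summable_rowTerm (a := m * τ.re)
        (mul_pos (abs_pos.2 (Int.cast_ne_zero.2 hm)) τ.im_pos) (by linarith : 1 / 2 < s)).mul_left
        (τ.im ^ s)).congr fun n => ?_
      exact (epstein_row_ne τ s hm n).symm
  have hRne : ∀ m : ℤ, m ≠ 0 →
      R m = τ.im ^ s * rowSum (m * τ.re) (|(m : ℝ)| * τ.im) s := fun m hm => by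
    rw [rowSum, ← tsum_mul_left]
    exact tsum_congr fun n => epstein_row_ne τ s hm n
  have hS := (hasSum_rows τ hs hs2).mul_left (τ.im ^ s)
  have hp : HasSum (fun k : ℕ => R ((k : ℤ) + 1)) (τ.im ^ s * ((∑' k, rowDefect τ k s) +
      τ.im ^ (1 - 2 * s) * lineIntegral s * zetaReal (2 * s - 1))) := by
    refine hS.congr_fun fun k => ?_
    rw [hRne _ (by omega)]
    push_cast
    rw [abs_of_pos (by positivity)]
  have hn : HasSum (fun k : ℕ => R (-((k : ℤ) + 1))) (τ.im ^ s * ((∑' k, rowDefect τ k s) +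
      τ.im ^ (1 - 2 * s) * lineIntegral s * zetaReal (2 * s - 1))) := by
    refine hS.congr_fun fun k => ?_
    rw [hRne _ (by omega)]
    simp only [Int.cast_neg, Int.cast_add, Int.cast_natCast, Int.cast_one, abs_neg, neg_mul,
      rowSum_neg]
    push_cast
    rw [abs_of_pos (by positivity)]
  have hall := HasSum.of_add_one_of_neg_add_one (f := R) hp hn
  have hs' : Summable F := (summable_prod_of_nonneg hnn).2 ⟨hrow, hall.summable⟩
  refine ⟨hs', ?_⟩
  rw [epstein, hs'.tsum_prod' hrow]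
  change ∑' m, R m = _
  rw [hall.tsum_eq]
  have h0 : R 0 = 2 * (τ.im ^ s * zetaReal (2 * s)) := (hasSum_row_zero τ hs).tsum_eq
  rw [h0]
  ring

theorem tendsto_defects (τ : ℍ) :
    Tendsto (fun s => ∑' k, rowDefect τ k s) (𝓝[>] 1) (𝓝 (∑' k, rowDefect τ k 1)) := by
  refine tendsto_tsum_of_dominated_convergence (summable_defect_bound τ) (fun k => ?_) ?_
  · have hb : 0 < (((k + 1 : ℕ) : ℝ)) * τ.im := mul_pos (Nat.cast_pos.2 k.succ_pos) τ.im_pos
    refine ((tendsto_rowSum hb).sub ?_)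
    refine Tendsto.mono_left ?_ nhdsWithin_le_nhds
    exact (continuousAt_const.rpow (continuousAt_const.sub (continuousAt_id.const_mul 2))
      (Or.inl hb.ne')).mul hasDerivAt_lineIntegral.continuousAt
  · filter_upwards [Ioo_mem_nhdsGT (show (1 : ℝ) < 2 by norm_num)] with s hs k
    exact abs_rowDefect_le τ k hs.1.le hs.2.le

theorem tsum_rowDefect_one (τ : ℍ) : ∑' k, rowDefect τ k 1 =
    -(2 * π / τ.im) * (Real.log ‖ModularForm.eta τ‖ + π * τ.im / 12) := by
  have h := (hasSum_lambert τ).mul_left (2 * π / τ.im)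
  rw [show 2 * π / τ.im * -(Real.log ‖ModularForm.eta τ‖ + π * τ.im / 12) =
    -(2 * π / τ.im) * (Real.log ‖ModularForm.eta τ‖ + π * τ.im / 12) by ring] at h
  refine (h.congr_fun fun k => ?_).tsum_eq
  have hk : (0 : ℝ) < ((k + 1 : ℕ) : ℝ) := Nat.cast_pos.2 k.succ_pos
  rw [rowDefect, rowSum_one _ (mul_pos hk τ.im_pos), lineIntegral_one,
    show (1 : ℝ) - 2 * 1 = -1 by norm_num, Real.rpow_neg_one]
  have e : Complex.exp (2 * π * Complex.I * ((((k + 1 : ℕ) : ℝ) * τ.re : ℝ) +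
      (((k + 1 : ℕ) : ℝ) * τ.im : ℝ) * Complex.I)) = nome τ ^ (k + 1) := by
    rw [nome, ← Complex.exp_nat_mul]
    conv_rhs => rw [← Complex.re_add_im (τ : ℂ)]
    simp only [UpperHalfPlane.coe_re, UpperHalfPlane.coe_im]
    push_cast
    ring_nf
  rw [e]
  have hy := τ.im_pos.ne'
  field_simp
  ring

theorem tendsto_zetaReal :
    Tendsto (fun u => zetaReal u - 1 / (u - 1)) (𝓝[>] 1) (𝓝 Real.eulerMascheroniConstant) := by
  have h := (Complex.continuous_re.tendsto _).comp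
    ZetaAsymptotics.tendsto_riemannZeta_sub_one_div_nhds_right
  rw [Complex.ofReal_re] at h
  refine h.congr' ?_
  filter_upwards [self_mem_nhdsWithin] with u hu
  have hu' : 1 < u := hu
  have e : riemannZeta (u : ℂ) = (zetaReal u : ℂ) := by
    rw [zeta_eq_tsum_one_div_nat_add_one_cpow (by simpa using hu'), zetaReal, Complex.ofReal_tsum]
    refine tsum_congr fun n => ?_
    rw [Complex.ofReal_div, Complex.ofReal_one, Complex.ofReal_cpow (by positivity)]
    push_cast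
    ring_nf
  simp only [Function.comp_apply, e, ← Complex.ofReal_one, ← Complex.ofReal_sub,
    ← Complex.ofReal_div, Complex.ofReal_re]

theorem tendsto_zetaReal_two : Tendsto (fun s => zetaReal (2 * s)) (𝓝[>] 1) (𝓝 (π ^ 2 / 6)) := by
  have hc : ContinuousOn (fun s => zetaReal (2 * s)) (Icc 1 2) := by
    refine continuousOn_tsum (fun n => continuousOn_const.div
      (continuousOn_const.rpow (continuousOn_const.mul continuousOn_id)
        fun _ _ => Or.inl (by positivity)) fun t _ => (by positivity))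
      (summable_zetaReal (show (1 : ℝ) < 2 by norm_num)) fun n t ht => ?_
    rw [Real.norm_of_nonneg (div_nonneg zero_le_one (Real.rpow_nonneg (by positivity) _))]
    exact one_div_le_one_div_of_le (by positivity)
      (Real.rpow_le_rpow_of_exponent_le (by simp) (by linarith [ht.1]))
  have hval : zetaReal (2 * 1) = π ^ 2 / 6 := by
    have h := (hasSum_nat_add_iff' 1).2 hasSum_zeta_two
    simp only [Finset.sum_range_one, Nat.cast_zero, zero_pow two_ne_zero, div_zero, sub_zero] at h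
    rw [mul_one, zetaReal, ← h.tsum_eq]
    exact tsum_congr fun n => by rw [Real.rpow_two]; push_cast; rfl
  rw [← hval]
  exact (hc 1 (left_mem_Icc.2 one_le_two)).mono_left
    (nhdsWithin_le_of_mem (Icc_mem_nhdsGT one_lt_two))

/-- **Kronecker's first limit formula.** -/
theorem tendsto_epstein_sub (τ : ℍ) :
    Tendsto (fun s => epstein τ s - π / (s - 1)) (𝓝[>] 1)
      (𝓝 (2 * π * (Real.eulerMascheroniConstant - Real.log 2 -
        Real.log (√τ.im * ‖ModularForm.eta τ‖ ^ 2)))) := by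
  have hy := τ.im_pos
  set G : ℝ → ℝ := fun s => τ.im ^ (1 - s) * lineIntegral s with hG
  have hG1 : G 1 = π := by simp [hG, lineIntegral_one]
  have hG' : HasDerivAt G (-π * Real.log τ.im - 2 * π * Real.log 2) 1 := by
    refine (((hasDerivAt_id (1 : ℝ)).const_sub 1).const_rpow hy |>.mul
      hasDerivAt_lineIntegral).congr_deriv ?_
    simp [lineIntegral_one]
    ring
  have hslope : Tendsto (fun s => (G s - π) / (s - 1)) (𝓝[>] 1)
      (𝓝 (-π * Real.log τ.im - 2 * π * Real.log 2)) := by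
    refine ((hasDerivAt_iff_tendsto_slope.1 hG').mono_left (nhdsGT_le_nhdsNE 1)).congr fun s => ?_
    rw [slope_def_field, hG1]
  have hu : Tendsto (fun s : ℝ => 2 * s - 1) (𝓝[>] 1) (𝓝[>] 1) := by
    refine tendsto_nhdsWithin_iff.2 ⟨?_, ?_⟩
    · have hc : Tendsto (fun s : ℝ => 2 * s - 1) (𝓝 1) (𝓝 (2 * 1 - 1)) :=
        (continuous_id.const_mul 2 |>.sub continuous_const).tendsto 1
      norm_num at hc
      exact hc.mono_left nhdsWithin_le_nhds
    · filter_upwards [self_mem_nhdsWithin] with s hs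
      simp only [mem_Ioi] at hs ⊢
      linarith
  have hys : Tendsto (fun s : ℝ => τ.im ^ s) (𝓝[>] 1) (𝓝 τ.im) := by
    have := ((Real.continuous_const_rpow hy.ne').tendsto 1).mono_left
      (nhdsWithin_le_nhds (s := Ioi 1))
    rwa [Real.rpow_one] at this
  have hGt : Tendsto G (𝓝[>] 1) (𝓝 π) := by
    rw [← hG1]; exact hG'.continuousAt.tendsto.mono_left nhdsWithin_le_nhds
  have hsum := ((((hys.mul tendsto_zetaReal_two).const_mul 2).add
    ((hys.mul (tendsto_defects τ)).const_mul 2)).add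
    (((hGt.mul (tendsto_zetaReal.comp hu))).const_mul 2)).add hslope
  refine (hsum.congr' ?_).trans_eq ?_
  · filter_upwards [Ioo_mem_nhdsGT (show (1 : ℝ) < 2 by norm_num)] with s hs
    rw [(summable_epstein τ hs.1 hs.2.le).2, Function.comp_apply]
    have e : τ.im ^ (1 - s) = τ.im ^ s * τ.im ^ (1 - 2 * s) := by
      rw [← Real.rpow_add hy]; ring_nf
    simp only [hG, e]
    have : s - 1 ≠ 0 := by linarith [hs.1]
    rw [show 2 * s - 1 - 1 = 2 * (s - 1) by ring]
    field_simp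
    ring
  · congr 1
    rw [tsum_rowDefect_one, Real.log_mul (Real.sqrt_ne_zero'.2 hy) (pow_ne_zero 2
      (norm_ne_zero_iff.2 (ModularForm.eta_ne_zero τ.im_pos))), Real.log_sqrt hy.le, Real.log_pow]
    field_simp
    push_cast
    ring

end FA.KroneckerLimit

end
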