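import Fermat.Agent.KroneckerLimit.Row
import Mathlib.Analysis.SpecialFunctions.Trigonometric.Cotangent
import Mathlib.Analysis.Complex.UpperHalfPlane.Exp

/-!
# A row at `s = 1`

`∑_{n} ((n + a)² + b²)⁻¹ = (π / b) (1 + 2 Re (q / (1 - q)))` with `q = exp (2 π i (a + b i))`, from
the partial fractions of the cotangent.
-/

set_option autoImplicit false

noncomputable section

open Complex Filter Topology
open scoped Real UpperHalfPlane

namespace FA.KroneckerLimit

theorem mem_integerComplement_of_im_ne_zero {z : ℂ} (hz : z.im ≠ 0) :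
    z ∈ Complex.integerComplement := by
  rintro ⟨n, rfl⟩
  simp at hz

theorem im_one_div_add_real (z : ℂ) (x : ℝ) :
    (1 / (z + (x : ℂ))).im = -z.im / ((x + z.re) ^ 2 + z.im ^ 2) := by
  rw [one_div, Complex.inv_im, Complex.normSq_apply, Complex.add_re, Complex.add_im,
    Complex.ofReal_re, Complex.ofReal_im, add_zero]
  ring_nf

/-- **A row at one.** -/
theorem rowSum_one (a : ℝ) {b : ℝ} (hb : 0 < b) :
    rowSum a b 1 = π / b * (1 + 2 * (cexp (2 * π * I * (a + b * I)) /
      (1 - cexp (2 * π * I * (a + b * I)))).re) := by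
  set z : ℂ := (a : ℂ) + b * I with hz
  have hzim : z.im = b := by simp [hz]
  have hzre : z.re = a := by simp [hz]
  set q := cexp (2 * π * I * z) with hq
  have hterm : ∀ x : ℝ, -b * rowTerm a b 1 x = (1 / (z + (x : ℂ))).im := fun x => by
    rw [im_one_div_add_real, hzim, hzre, rowTerm, Real.rpow_neg_one]
    ring
  -- the two halves
  have hs := summable_rowTerm (a := a) hb (by norm_num : (1 : ℝ) / 2 < 1)
  have hmem : z ∈ Complex.integerComplement :=
    mem_integerComplement_of_im_ne_zero (by rw [hzim]; exact hb.ne')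
  have hC : Summable fun n : ℕ => 1 / (z - ((n : ℂ) + 1)) + 1 / (z + ((n : ℂ) + 1)) :=
    summable_cotTerm hmem
  have hcot := cot_series_rep' hmem
  have h1 : Summable fun n : ℕ => rowTerm a b 1 (((n : ℤ) + 1 : ℤ) : ℝ) :=
    hs.comp_injective fun m n h => by simpa using h
  have h2 : Summable fun n : ℕ => rowTerm a b 1 ((-((n : ℤ) + 1) : ℤ) : ℝ) :=
    hs.comp_injective fun m n h => by simpa using h
  have hsplit : rowSum a b 1 = rowTerm a b 1 0 + ∑' n : ℕ,
      (rowTerm a b 1 (((n : ℤ) + 1 : ℤ) : ℝ) + rowTerm a b 1 ((-((n : ℤ) + 1) : ℤ) : ℝ)) := by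
    have hn : Summable fun n : ℕ => rowTerm a b 1 ((n : ℤ) : ℝ) :=
      hs.comp_injective fun m n h => by simpa using h
    have h := tsum_of_nat_of_neg_add_one (f := fun n : ℤ => rowTerm a b 1 (n : ℝ)) hn h2
    rw [rowSum, h, hn.tsum_eq_zero_add, Summable.tsum_add h1 h2]
    push_cast
    ring
  have him : (π * Complex.cot (π * z)).im = -b * rowSum a b 1 := by
    have h := congrArg Complex.im hcot
    rw [Complex.sub_im, Complex.im_tsum hC] at h
    rw [eq_add_of_sub_eq h, hsplit, mul_add, ← tsum_mul_left, hterm 0]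
    rw [Complex.ofReal_zero, add_zero, add_comm]
    congr 1
    refine tsum_congr fun n => ?_
    rw [mul_add, hterm, hterm, Complex.add_im, add_comm]
    push_cast
    ring_nf
  have hqnorm : ‖q‖ < 1 := UpperHalfPlane.norm_exp_two_pi_I_lt_one ⟨z, by rw [hzim]; exact hb⟩
  have hq1 : (1 : ℂ) - q ≠ 0 := sub_ne_zero.2 fun h => by rw [← h, norm_one] at hqnorm; linarith
  have hexp := pi_mul_cot_pi_q_exp ⟨z, by rw [hzim]; exact hb⟩
  simp only at hexp
  rw [tsum_geometric_of_norm_lt_one hqnorm] at hexp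
  rw [hexp] at him
  have hinv : (1 - q)⁻¹ = 1 + q / (1 - q) := by field_simp; ring
  rw [hinv] at him
  simp only [Complex.sub_im, Complex.mul_im, Complex.mul_re, Complex.ofReal_re, Complex.ofReal_im,
    Complex.I_re, Complex.I_im, Complex.add_re, Complex.add_im, Complex.one_re, Complex.one_im,
    Complex.re_ofNat, Complex.im_ofNat] at him
  field_simp
  linarith

end FA.KroneckerLimit

end
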