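import Fermat.Agent.KroneckerLimit.Cotangent
import Mathlib.NumberTheory.ModularForms.DedekindEta
import Mathlib.Analysis.SpecialFunctions.Complex.LogBounds
import Mathlib.Analysis.SpecialFunctions.Log.Summable

/-!
# The logarithm of `|η|` as a double sum

`∑_{m ≥ 1} Re (q ^ m / (1 - q ^ m)) / m = -log |η τ| - π y / 12` with
`q = exp (2 π i τ)`, `y = Im τ`.
-/

set_option autoImplicit false

noncomputable section

open Complex Filter Topology
open scoped Real UpperHalfPlane

namespace FA.KroneckerLimit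

/-- `exp (2 π i τ)`. -/
def nome (τ : ℍ) : ℂ := cexp (2 * π * I * τ)

theorem norm_nome_lt_one (τ : ℍ) : ‖nome τ‖ < 1 := UpperHalfPlane.norm_exp_two_pi_I_lt_one τ

theorem summable_double (q : ℂ) (hq : ‖q‖ < 1) :
    Summable (Function.uncurry fun k j : ℕ => q ^ ((k + 1) * (j + 1)) / ((k + 1 : ℕ) : ℂ)) := by
  have hg := summable_geometric_of_lt_one (norm_nonneg q) hq
  refine Summable.of_norm_bounded (hg.mul_of_nonneg hg (fun _ => by positivity)
    fun _ => by positivity) fun p => ?_
  obtain ⟨k, j⟩ := p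
  simp only [Function.uncurry_apply_pair, norm_div, norm_pow, Complex.norm_natCast]
  refine (div_le_self (by positivity) (by exact_mod_cast k.succ_pos)).trans ?_
  rw [← pow_add]
  refine pow_le_pow_of_le_one (norm_nonneg q) hq.le ?_
  rw [add_mul, mul_add, one_mul, mul_one]
  omega

/-- **The double sum.** -/
theorem hasSum_lambert (τ : ℍ) :
    HasSum (fun k : ℕ => (nome τ ^ (k + 1) / (1 - nome τ ^ (k + 1))).re / ((k + 1 : ℕ) : ℝ))
      (-(Real.log ‖ModularForm.eta τ‖ + π * τ.im / 12)) := by
  set q := nome τ with hq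
  have hq1 : ‖q‖ < 1 := norm_nome_lt_one τ
  set G : ℕ → ℕ → ℂ := fun k j => q ^ ((k + 1) * (j + 1)) / ((k + 1 : ℕ) : ℂ) with hG
  have hGs : Summable (Function.uncurry G) := summable_double q hq1
  have hpow : ∀ k : ℕ, ‖q ^ (k + 1)‖ < 1 := fun k => by
    rw [norm_pow]; exact pow_lt_one₀ (norm_nonneg q) hq1 k.succ_ne_zero
  have hrow : ∀ k : ℕ, HasSum (fun j => G k j)
      (q ^ (k + 1) / (1 - q ^ (k + 1)) / ((k + 1 : ℕ) : ℂ)) := fun k => by
    have h := (hasSum_geometric_of_norm_lt_one (hpow k)).mul_left (q ^ (k + 1))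
    rw [← div_eq_mul_inv] at h
    refine (h.congr_fun fun j => ?_).div_const _
    rw [← pow_succ', ← pow_mul]
  have hcol : ∀ j : ℕ, HasSum (fun k => G k j) (-Complex.log (1 - q ^ (j + 1))) := fun j => by
    have h := Complex.hasSum_taylorSeries_neg_log (hpow j)
    rw [← hasSum_nat_add_iff' 1, Finset.sum_range_one, Nat.cast_zero, div_zero, sub_zero] at h
    refine h.congr_fun fun k => ?_
    simp only [hG]
    rw [← pow_mul, mul_comm (j + 1)]
  have hcolsum : Summable fun j : ℕ => -Complex.log (1 - q ^ (j + 1)) :=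
    (hGs.prod_symm.hasSum.prod_fiberwise fun j => hcol j).summable
  have hrowsum := hGs.hasSum.prod_fiberwise fun k => hrow k
  have hswap : ∑' p, Function.uncurry G p = ∑' j : ℕ, -Complex.log (1 - q ^ (j + 1)) := by
    rw [← (Equiv.prodComm ℕ ℕ).tsum_eq (Function.uncurry G)]
    exact (hGs.prod_symm.hasSum.prod_fiberwise fun j => hcol j).tsum_eq.symm
  rw [hswap, tsum_neg] at hrowsum
  -- the product
  have heta : Real.log ‖ModularForm.eta τ‖ + π * τ.im / 12 =
      (∑' j : ℕ, Complex.log (1 - q ^ (j + 1))).re := by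
    have hne : ∀ j : ℕ, 1 - q ^ (j + 1) ≠ 0 := fun j => sub_ne_zero.2 fun h => by
      have := hpow j; rw [← h, norm_one] at this; exact lt_irrefl _ this
    have hprod := Complex.cexp_tsum_eq_tprod hne (by simpa using hcolsum.neg)
    have he : ∏' n : ℕ, (1 - ModularForm.eta_q n (τ : ℂ)) = ∏' j : ℕ, (1 - q ^ (j + 1)) :=
      tprod_congr fun n => by
        rw [hq, nome, ModularForm.eta_q]
        simp only [Function.Periodic.qParam, ← Complex.exp_nat_mul]
        push_cast
        ring_nf
    rw [ModularForm.eta, norm_mul, he, ← hprod, Complex.norm_exp, Function.Periodic.norm_qParam,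
      Real.log_mul (Real.exp_ne_zero _) (Real.exp_ne_zero _), Real.log_exp, Real.log_exp,
      UpperHalfPlane.coe_im]
    ring
  rw [heta]
  refine ((Complex.hasSum_re hrowsum).congr_fun fun k => ?_)
  exact (Complex.div_natCast_re _ _).symm

end FA.KroneckerLimit

end
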