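import Fermat.Agent.Root.SummaryClassNumberFormulaForms
import Mathlib.NumberTheory.LegendreSymbol.ZModChar

/-!
# Jacobi's theorem on two squares

`x² + y² = n` has `4 ∑_{d ∣ n} χ₄ d` solutions: the odd case is Dirichlet's mass formula in
determinant four, and `(x, y) ↦ (x + y, x - y)` removes the powers of two.
-/

set_option autoImplicit false

noncomputable section

open Finset

namespace FA.KroneckerLimit

/-- The solutions of `x² + y² = n`. -/
def squarePairs (n : ℕ) : Set (ℤ × ℤ) := {v | v.1 ^ 2 + v.2 ^ 2 = (n : ℤ)}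

/-- `∑_{d ∣ n} χ₄ d`. -/
def charDivisorSum (n : ℕ) : ℤ := ∑ d ∈ n.divisors, ZMod.χ₄ (d : ZMod 4)

theorem squarePairs_finite (n : ℕ) : (squarePairs n).Finite := by
  refine ((Set.finite_Icc (-(n : ℤ)) n).prod (Set.finite_Icc (-(n : ℤ)) n)).subset fun v hv => ?_
  have h : v.1 ^ 2 + v.2 ^ 2 = (n : ℤ) := hv
  have hb : ∀ z : ℤ, z ^ 2 ≤ n → z ∈ Set.Icc (-(n : ℤ)) n := fun z hz => by
    have := Int.natAbs_le_self_sq z
    constructor <;> omega
  exact ⟨hb _ (by nlinarith), hb _ (by nlinarith)⟩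

theorem jacobiSym_neg_four {d : ℕ} (hd : Odd d) :
    jacobiSym (-4) d = ZMod.χ₄ (d : ZMod 4) := by
  have h : Int.gcd 2 d = 1 := by
    simpa [Int.gcd] using (Nat.coprime_two_left.2 hd)
  rw [show (-4 : ℤ) = -1 * 2 ^ 2 by norm_num, jacobiSym.mul_left, jacobiSym.at_neg_one hd,
    jacobiSym.sq_one' h, mul_one]

theorem ncard_one_four {m : ℕ} (hm : Odd m) :
    ({v : ℤ × ℤ | v.1 ^ 2 + 4 * v.2 ^ 2 = (m : ℤ)}.ncard : ℤ) = 2 * charDivisorSum m := by
  have hc : m.Coprime (4 * 4) := by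
    rw [show 4 * 4 = 2 ^ 4 by norm_num]
    exact (Nat.coprime_two_right.2 hm).pow_right 4
  have h := FA.Summary.dirichlet_massFormula 4 (by norm_num) 2 (by norm_num) m hc
  have hf : (Finset.range (2 + 1) ×ˢ Finset.Icc (-((2 : ℕ) : ℤ)) (2 : ℕ)).filter (fun t =>
        0 < t.1 ∧ (t.1 : ℤ) ∣ t.2 ^ 2 + ((4 : ℕ) : ℤ) ∧
          Int.gcd (Int.gcd t.1 (2 * t.2)) ((t.2 ^ 2 + ((4 : ℕ) : ℤ)) / t.1) = 1 ∧
          2 * |t.2| ≤ (t.1 : ℤ) ∧ (t.1 : ℤ) * t.1 ≤ t.2 ^ 2 + ((4 : ℕ) : ℤ) ∧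
          ((2 * |t.2| = (t.1 : ℤ) ∨ (t.1 : ℤ) * t.1 = t.2 ^ 2 + ((4 : ℕ) : ℤ)) → 0 ≤ t.2)) =
      {(1, 0)} := by decide +kernel
  rw [hf, Finset.sum_singleton] at h
  rw [charDivisorSum, ← Finset.sum_congr rfl fun d hd =>
    jacobiSym_neg_four (hm.of_dvd_nat (Nat.dvd_of_mem_divisors hd))]
  simpa using h

theorem ncard_squarePairs_odd {m : ℕ} (hm : Odd m) :
    ((squarePairs m).ncard : ℤ) = 4 * charDivisorSum m := by
  set T : Set (ℤ × ℤ) := {v | v.1 ^ 2 + 4 * v.2 ^ 2 = (m : ℤ)} with hT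
  set f : ℤ × ℤ → ℤ × ℤ := fun v => (v.1, 2 * v.2) with hf
  set g : ℤ × ℤ → ℤ × ℤ := fun v => (2 * v.2, v.1) with hg
  have hfi : f.Injective := fun u v h => by
    simp only [hf, Prod.mk.injEq] at h; ext <;> omega
  have hgi : g.Injective := fun u v h => by
    simp only [hg, Prod.mk.injEq] at h; ext <;> omega
  obtain ⟨k, hk⟩ := hm
  have hmz : (m : ℤ) % 2 = 1 := by omega
  have hsplit : squarePairs m = f '' T ∪ g '' T := by
    ext ⟨x, y⟩
    refine ⟨fun h => ?_, ?_⟩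
    · have h' : x ^ 2 + y ^ 2 = (m : ℤ) := h
      rcases Int.even_or_odd y with ⟨b, rfl⟩ | ⟨b, rfl⟩
      · exact Or.inl ⟨(x, b), show _ = _ by rw [← h']; ring, by simp [hf, two_mul]⟩
      · rcases Int.even_or_odd x with ⟨a, rfl⟩ | ⟨a, rfl⟩
        · exact Or.inr ⟨(2 * b + 1, a), show _ = _ by rw [← h']; ring, by simp [hg, two_mul]⟩
        · exact absurd hmz (by
            rw [← h', show (2 * a + 1) ^ 2 + (2 * b + 1) ^ 2 =
              2 * (2 * a ^ 2 + 2 * a + 2 * b ^ 2 + 2 * b + 1) by ring, Int.mul_emod_right]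
            norm_num)
    · rintro (⟨⟨a, b⟩, h, e⟩ | ⟨⟨a, b⟩, h, e⟩) <;>
        (have h' : a ^ 2 + 4 * b ^ 2 = (m : ℤ) := h
         rw [← e]; show _ = _; rw [← h']; ring)
  have hdisj : Disjoint (f '' T) (g '' T) := by
    refine Set.disjoint_left.2 ?_
    rintro _ ⟨u, hu, rfl⟩ ⟨v, hv, e⟩
    have h' : u.1 ^ 2 + 4 * u.2 ^ 2 = (m : ℤ) := hu
    simp only [hf, hg, Prod.mk.injEq] at e
    rw [← h', ← e.1, show (2 * v.2) ^ 2 + 4 * u.2 ^ 2 = 2 * (2 * v.2 ^ 2 + 2 * u.2 ^ 2) by ring,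
      Int.mul_emod_right] at hmz
    norm_num at hmz
  have hTfin : T.Finite := by
    refine (squarePairs_finite m).preimage hfi.injOn |>.subset fun v hv => ?_
    have h' : v.1 ^ 2 + 4 * v.2 ^ 2 = (m : ℤ) := hv
    show _ = _
    rw [← h']; simp only [hf]; ring
  rw [hsplit, Set.ncard_union_eq hdisj (hTfin.image f) (hTfin.image g),
    Set.ncard_image_of_injective _ hfi, Set.ncard_image_of_injective _ hgi, Nat.cast_add,
    ncard_one_four ⟨k, hk⟩]
  ring

theorem ncard_squarePairs_two_mul (n : ℕ) :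
    (squarePairs (2 * n)).ncard = (squarePairs n).ncard := by
  set f : ℤ × ℤ → ℤ × ℤ := fun v => (v.1 + v.2, v.1 - v.2) with hf
  have hfi : f.Injective := fun u v h => by
    simp only [hf, Prod.mk.injEq] at h; ext <;> omega
  rw [← Set.ncard_image_of_injective (squarePairs n) hfi]
  congr 1
  ext ⟨x, y⟩
  constructor
  · intro h
    have h' : x ^ 2 + y ^ 2 = 2 * (n : ℤ) := by exact_mod_cast h
    obtain ⟨a, ha⟩ : Even (x + y) := by
      have : Even (x ^ 2 + y ^ 2) := ⟨n, by rw [h']; ring⟩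
      simpa [Int.even_add, Int.even_pow] using this
    obtain rfl : y = a + a - x := by omega
    exact ⟨(a, x - a), show _ = _ from
      mul_left_cancel₀ (two_ne_zero' ℤ) (by linear_combination h'),
      by simp only [hf]; ext <;> omega⟩
  · rintro ⟨⟨a, b⟩, h, e⟩
    have h' : a ^ 2 + b ^ 2 = (n : ℤ) := h
    rw [← e]
    show _ = _
    simp only [hf]
    push_cast
    linear_combination 2 * h'

theorem charDivisorSum_two_mul (n : ℕ) : charDivisorSum (2 * n) = charDivisorSum n := by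
  rcases Nat.eq_zero_or_pos n with rfl | hn
  · rfl
  refine (Finset.sum_subset (Nat.divisors_subset_of_dvd (by omega) (dvd_mul_left n 2))
    fun d hd hd' => ?_).symm
  rcases Nat.even_or_odd d with he | ho
  · rw [ZMod.χ₄_nat_eq_if_mod_four, if_pos (Nat.even_iff.1 he)]
  · exact absurd (Nat.mem_divisors.2 ⟨(Nat.coprime_two_right.2 ho).dvd_of_dvd_mul_left
      (Nat.dvd_of_mem_divisors hd), hn.ne'⟩) hd'

/-- **Jacobi's theorem**: `n ≥ 1` is in `4 ∑_{d ∣ n} χ₄ d` ways a sum of two squares. -/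
theorem ncard_squarePairs {n : ℕ} (hn : 0 < n) :
    ((squarePairs n).ncard : ℤ) = 4 * charDivisorSum n := by
  induction n using Nat.strong_induction_on with
  | _ n ih =>
    rcases Nat.even_or_odd n with ⟨k, rfl⟩ | ho
    · rw [← two_mul, ncard_squarePairs_two_mul, charDivisorSum_two_mul]
      exact ih k (by omega) (by omega)
    · exact ncard_squarePairs_odd ho

end FA.KroneckerLimit

end
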