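import Fermat.Agent.KroneckerLimit.Limit
import Fermat.Agent.KroneckerLimit.TwoSquares
import Fermat.Agent.ModularValues.AtI
import Mathlib.NumberTheory.LSeries.DirichletContinuation
import Mathlib.NumberTheory.LSeries.Convolution

/-!
# The Gaussian integers and `L' (1, χ₄)`

The Epstein zeta function of `i` is `4 ζ s L (s, χ₄)`; with `η i = Γ (1/4) / (2 π ^ (3/4))` the
limit formula gives `L (1, χ₄) = π / 4` and `L' (1, χ₄)`.
-/

set_option autoImplicit false

noncomputable section

open Filter Topology Set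
open scoped Real LSeries.notation

namespace FA.KroneckerLimit

/-- The character modulo four with complex values. -/
def chiFour : DirichletCharacter ℂ 4 := ZMod.χ₄.ringHomComp (Int.castRingHom ℂ)

theorem chiFour_apply (a : ZMod 4) : chiFour a = (ZMod.χ₄ a : ℂ) := rfl

theorem chiFour_ne_one : chiFour ≠ 1 := fun h => by
  have h3 := congrArg (fun χ : DirichletCharacter ℂ 4 => χ 3) h
  simp only [chiFour_apply, MulChar.one_apply (show IsUnit (3 : ZMod 4) by decide),
    show ZMod.χ₄ (3 : ZMod 4) = -1 by decide] at h3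
  norm_num at h3

theorem convolution_one_chiFour {n : ℕ} :
    ((1 : ℕ → ℂ) ⍟ (chiFour ·)) n = (charDivisorSum n : ℂ) := by
  rw [LSeries.convolution_def]
  simp only [Pi.one_apply, one_mul]
  rw [← Nat.map_div_left_divisors, Finset.sum_map, charDivisorSum, Int.cast_sum]
  exact Finset.sum_congr rfl fun d _ => chiFour_apply _

/-- The norm `m² + n²`. -/
def pairNorm (v : ℤ × ℤ) : ℕ := (v.1 ^ 2 + v.2 ^ 2).natAbs

theorem pairNorm_preimage (n : ℕ) : {v | pairNorm v = n} = squarePairs n := by
  ext v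
  simp only [pairNorm, squarePairs, Set.mem_ofPred_eq]
  have : 0 ≤ v.1 ^ 2 + v.2 ^ 2 := by positivity
  omega

theorem epstein_I_term (s : ℝ) (v : ℤ × ℤ) :
    ((UpperHalfPlane.I.im /
      Complex.normSq ((v.1 : ℂ) * (UpperHalfPlane.I : ℂ) + v.2)) ^ s : ℝ) =
      (1 / (pairNorm v : ℝ)) ^ s := by
  rw [UpperHalfPlane.I_im, UpperHalfPlane.coe_I, Complex.normSq_apply, pairNorm, Nat.cast_natAbs,
    abs_of_nonneg (by positivity : (0 : ℤ) ≤ v.1 ^ 2 + v.2 ^ 2)]
  simp
  ring_nf

/-- **The Epstein zeta function of `ℤ[i]`.** -/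
theorem epstein_I {s : ℝ} (hs : 1 < s) (hs2 : s ≤ 2) :
    (epstein UpperHalfPlane.I s : ℂ) =
      4 * (riemannZeta s * DirichletCharacter.LFunction chiFour s) := by
  set F : ℤ × ℤ → ℝ := fun v =>
    (UpperHalfPlane.I.im / Complex.normSq ((v.1 : ℂ) * (UpperHalfPlane.I : ℂ) + v.2)) ^ s
  have hsum : HasSum F (epstein UpperHalfPlane.I s) :=
    (summable_epstein UpperHalfPlane.I hs hs2).1.hasSum
  have hre : 1 < (s : ℂ).re := by simpa using hs
  have hfib : ∀ n : ℕ, HasSum (fun v : {v : ℤ × ℤ // pairNorm v = n} => F v)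
      (((squarePairs n).ncard : ℝ) * (1 / (n : ℝ)) ^ s) := fun n => by
    have : Fintype {v : ℤ × ℤ // pairNorm v = n} :=
      ((pairNorm_preimage n).symm ▸ squarePairs_finite n :
        Set.Finite {v | pairNorm v = n}).fintype
    convert hasSum_fintype (fun v : {v : ℤ × ℤ // pairNorm v = n} => F v) using 1
    rw [Finset.sum_congr rfl fun v _ => (epstein_I_term s v.1).trans (by rw [v.2]),
      Finset.sum_const, Finset.card_univ, nsmul_eq_mul, ← Nat.card_eq_fintype_card,
      ← pairNorm_preimage]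
    rfl
  have hgroup := ((Equiv.sigmaFiberEquiv pairNorm).hasSum_iff.2 hsum).sigma hfib
  have hC := hgroup.mapL Complex.ofRealCLM
  simp only [Complex.ofRealCLM_apply] at hC
  have h1 : LSeriesSummable 1 s := LSeriesSummable_one_iff.2 hre
  have h2 : LSeriesSummable (chiFour ·) s :=
    DirichletCharacter.LSeriesSummable_of_one_lt_re chiFour hre
  rw [DirichletCharacter.LFunction_eq_LSeries _ hre, ← LSeries_one_eq_riemannZeta hre,
    ← LSeries_convolution' h1 h2, ← hC.tsum_eq, LSeries, ← tsum_mul_left]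
  refine tsum_congr fun n => ?_
  rcases Nat.eq_zero_or_pos n with rfl | hn
  · simp [Real.zero_rpow (by linarith : s ≠ 0)]
  rw [LSeries.term_of_ne_zero hn.ne', convolution_one_chiFour, one_div,
    Real.inv_rpow (Nat.cast_nonneg n), Complex.ofReal_mul, Complex.ofReal_inv,
    Complex.ofReal_cpow (Nat.cast_nonneg n), Complex.ofReal_natCast, Complex.ofReal_natCast,
    ← Int.cast_natCast ((squarePairs n).ncard), ncard_squarePairs hn]
  push_cast
  ring

theorem tendsto_chiFour_slope :
    Tendsto (fun s : ℝ => (DirichletCharacter.LFunction chiFour s -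
      DirichletCharacter.LFunction chiFour 1) / ((s : ℂ) - 1)) (𝓝[>] 1)
      (𝓝 (deriv (DirichletCharacter.LFunction chiFour) 1)) := by
  have h := (DirichletCharacter.differentiable_LFunction chiFour_ne_one 1).hasDerivAt
  have hi : Tendsto (fun s : ℝ => (s : ℂ)) (𝓝[>] (1 : ℝ)) (𝓝[≠] (1 : ℂ)) := by
    refine tendsto_nhdsWithin_iff.2 ⟨?_, ?_⟩
    · simpa using (Complex.continuous_ofReal.tendsto 1).mono_left nhdsWithin_le_nhds
    · filter_upwards [self_mem_nhdsWithin] with s hs
      simpa using (ne_of_gt (show (1 : ℝ) < s from hs))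
  exact ((hasDerivAt_iff_tendsto_slope.1 h).comp hi).congr fun s => by
    rw [Function.comp_apply, slope_def_field]

/-- `2 π (γ - log 2 - log |η i|²)`. -/
theorem limit_value_I :
    2 * π * (Real.eulerMascheroniConstant - Real.log 2 -
      Real.log (√UpperHalfPlane.I.im * ‖ModularForm.eta UpperHalfPlane.I‖ ^ 2)) =
      π * (2 * Real.eulerMascheroniConstant + 2 * Real.log 2 + 3 * Real.log π -
        4 * Real.log (Real.Gamma (1 / 4))) := by
  have hg : 0 < Real.Gamma (1 / 4) := Real.Gamma_pos_of_pos (by norm_num)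
  have hp : (0 : ℝ) < π ^ (3 / 4 : ℝ) := Real.rpow_pos_of_pos Real.pi_pos _
  rw [UpperHalfPlane.I_im, UpperHalfPlane.coe_I, FA.ModularValues.eta_I, Complex.norm_real,
    Real.norm_of_nonneg (div_nonneg hg.le (by positivity)), Real.sqrt_one, one_mul, Real.log_pow,
    Real.log_div hg.ne' (by positivity), Real.log_mul two_ne_zero hp.ne',
    Real.log_rpow Real.pi_pos]
  push_cast
  ring

theorem lFunction_chiFour_one_and_deriv :
    DirichletCharacter.LFunction chiFour 1 = ((π / 4 : ℝ) : ℂ) ∧
      deriv (DirichletCharacter.LFunction chiFour) 1 =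
        ((π / 4 * (Real.eulerMascheroniConstant + 2 * Real.log 2 + 3 * Real.log π -
          4 * Real.log (Real.Gamma (1 / 4))) : ℝ) : ℂ) := by
  set Lc := DirichletCharacter.LFunction chiFour
  set D := deriv Lc 1
  have hE := (Complex.continuous_ofReal.tendsto _).comp (tendsto_epstein_sub UpperHalfPlane.I)
  rw [limit_value_I] at hE
  have hz := ZetaAsymptotics.tendsto_riemannZeta_sub_one_div_nhds_right
  have hsl := tendsto_chiFour_slope
  have hL : Tendsto (fun s : ℝ => Lc s) (𝓝[>] 1) (𝓝 (Lc 1)) :=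
    ((DirichletCharacter.differentiable_LFunction chiFour_ne_one).continuous.comp
      Complex.continuous_ofReal).tendsto' 1 _ (by simp [Lc]) |>.mono_left nhdsWithin_le_nhds
  have hid : Tendsto (fun s : ℝ => (s : ℂ) - 1) (𝓝[>] 1) (𝓝 0) :=
    (Complex.continuous_ofReal.sub continuous_const).tendsto' 1 _ (by simp)
      |>.mono_left nhdsWithin_le_nhds
  -- the difference `(4 Lc 1 - π) / (s - 1)` has a limit
  have hd := (hE.sub (((hz.mul hL).add hsl).const_mul 4))
  have hd' : Tendsto (fun s : ℝ => (4 * Lc 1 - π) / ((s : ℂ) - 1)) (𝓝[>] 1)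
      (𝓝 (((π * (2 * Real.eulerMascheroniConstant + 2 * Real.log 2 + 3 * Real.log π -
        4 * Real.log (Real.Gamma (1 / 4))) : ℝ) : ℂ) -
          4 * ((Real.eulerMascheroniConstant : ℂ) * Lc 1 + D))) := by
    refine hd.congr' ?_
    filter_upwards [Ioo_mem_nhdsGT (show (1 : ℝ) < 2 by norm_num)] with s hs
    rw [Function.comp_apply, Complex.ofReal_sub, epstein_I hs.1 hs.2.le]
    push_cast
    ring
  have hne : ∀ᶠ s : ℝ in 𝓝[>] 1, (s : ℂ) - 1 ≠ 0 := by
    filter_upwards [self_mem_nhdsWithin] with s hs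
    simpa [sub_eq_zero] using (ne_of_gt (show (1 : ℝ) < s from hs))
  have h1 : 4 * Lc 1 - π = 0 := by
    refine tendsto_nhds_unique (l := 𝓝[>] (1 : ℝ)) tendsto_const_nhds ?_
    have := hd'.mul hid
    rw [mul_zero] at this
    exact this.congr' (hne.mono fun s hs => by rw [div_mul_cancel₀ _ hs])
  have hL1 : Lc 1 = ((π / 4 : ℝ) : ℂ) := by push_cast; linear_combination h1 / 4
  refine ⟨hL1, ?_⟩
  simp only [h1, zero_div] at hd'
  have h2 := tendsto_nhds_unique tendsto_const_nhds hd'
  rw [hL1] at h2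
  push_cast at h2 ⊢
  linear_combination h2 / 4

end FA.KroneckerLimit

end
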