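import Mathlib.Analysis.SpecialFunctions.Gaussian.GaussianIntegral
import Mathlib.Analysis.SpecialFunctions.Gamma.Deriv
import Mathlib.NumberTheory.Harmonic.GammaDeriv
import Mathlib.Analysis.SpecialFunctions.JapaneseBracket
import Mathlib.MeasureTheory.Integral.Prod

/-!
# The integral of `(1 + t²) ^ (-s)` over the line

It is `√π Γ (s - 1/2) / Γ s`, equal to `π` at `s = 1` with derivative `-2 π log 2` there.
-/

set_option autoImplicit false

noncomputable section

open MeasureTheory Set Filter Topology
open scoped Real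

namespace FA.KroneckerLimit

/-- `∫ (1 + t²) ^ (-s)`. -/
def lineIntegral (s : ℝ) : ℝ := ∫ t : ℝ, (1 + t ^ 2) ^ (-s)

theorem integrable_one_add_sq {s : ℝ} (hs : 1 / 2 < s) :
    Integrable fun t : ℝ => (1 + t ^ 2) ^ (-s) := by
  have h := integrable_rpow_neg_one_add_norm_sq (E := ℝ) (μ := volume) (r := 2 * s)
    (by rw [Module.finrank_self]; norm_num; linarith)
  refine h.congr (Eventually.of_forall fun t => ?_)
  simp only [Real.norm_eq_abs, sq_abs]
  ring_nf

theorem lineIntegral_nonneg (s : ℝ) : 0 ≤ lineIntegral s :=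
  integral_nonneg fun _ => by positivity

/-- **The value.** -/
theorem gamma_mul_lineIntegral {s : ℝ} (hs : 1 / 2 < s) :
    Real.Gamma s * lineIntegral s = √π * Real.Gamma (s - 1 / 2) := by
  set F : ℝ → ℝ → ℝ := fun u t => u ^ (s - 1) * Real.exp (-(u * (1 + t ^ 2))) with hF
  have hinner : ∀ u ∈ Ioi (0 : ℝ), ∫ t, F u t =
      √π * (Real.exp (-u) * u ^ (s - 1 / 2 - 1)) := by
    intro u hu
    have hu0 : (0 : ℝ) < u := hu
    have e : ∀ t : ℝ, F u t = u ^ (s - 1) * Real.exp (-u) * Real.exp (-u * t ^ 2) := fun t => by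
      simp only [hF]
      rw [mul_assoc, ← Real.exp_add]
      ring_nf
    simp only [e]
    rw [integral_const_mul, integral_gaussian, Real.sqrt_div Real.pi_nonneg, Real.sqrt_eq_rpow u,
      show u ^ (s - 1) = u ^ (s - 1 / 2 - 1) * u ^ (1 / 2 : ℝ) by
        rw [← Real.rpow_add hu0]; ring_nf]
    have hpos : 0 < u ^ (1 / 2 : ℝ) := Real.rpow_pos_of_pos hu0 _
    field_simp
  have hmeas : AEStronglyMeasurable (Function.uncurry F)
      ((volume.restrict (Ioi (0 : ℝ))).prod (volume : Measure ℝ)) := by
    refine Measurable.aestronglyMeasurable ?_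
    simp only [hF, Function.uncurry_def]
    fun_prop
  have hint : Integrable (Function.uncurry F)
      ((volume.restrict (Ioi (0 : ℝ))).prod (volume : Measure ℝ)) := by
    refine (integrable_prod_iff hmeas).2 ⟨?_, ?_⟩
    · refine (ae_restrict_iff' measurableSet_Ioi).2 (Eventually.of_forall fun u hu => ?_)
      have hu0 : (0 : ℝ) < u := hu
      refine ((integrable_exp_neg_mul_sq hu0).const_mul (u ^ (s - 1) * Real.exp (-u))).congr
        (Eventually.of_forall fun t => ?_)
      simp only [hF, Function.uncurry_apply_pair]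
      rw [mul_assoc, ← Real.exp_add]
      ring_nf
    · refine (((Real.GammaIntegral_convergent (s := s - 1 / 2) (by linarith)).const_mul
        (√π))).congr ?_
      refine (ae_restrict_iff' measurableSet_Ioi).2 (Eventually.of_forall fun u hu => ?_)
      simp only [Function.uncurry_apply_pair]
      have hu0 : (0 : ℝ) < u := hu
      have hpos : ∀ t, ‖F u t‖ = F u t := fun t =>
        Real.norm_of_nonneg (mul_nonneg (Real.rpow_nonneg hu0.le _) (Real.exp_pos _).le)
      simp only [hpos]
      exact (hinner u hu).symm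
  have hswap := integral_integral_swap hint
  rw [setIntegral_congr_fun measurableSet_Ioi hinner, integral_const_mul,
    ← Real.Gamma_eq_integral (by linarith : (0 : ℝ) < s - 1 / 2)] at hswap
  rw [hswap, lineIntegral, ← integral_const_mul]
  refine integral_congr_ae (Eventually.of_forall fun t => ?_)
  have h1 : (0 : ℝ) < 1 + t ^ 2 := by positivity
  simp only [hF]
  rw [Real.rpow_neg h1.le, ← Real.inv_rpow h1.le, mul_comm,
    show ((1 + t ^ 2)⁻¹ : ℝ) = 1 / (1 + t ^ 2) by rw [one_div],
    ← Real.integral_rpow_mul_exp_neg_mul_Ioi (by linarith : (0 : ℝ) < s) h1]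
  refine setIntegral_congr_fun measurableSet_Ioi fun u _ => ?_
  ring_nf

theorem lineIntegral_one : lineIntegral 1 = π := by
  rw [lineIntegral, ← integral_univ_inv_one_add_sq]
  exact integral_congr_ae (Eventually.of_forall fun t => by simp [Real.rpow_neg_one])

theorem lineIntegral_eventuallyEq :
    lineIntegral =ᶠ[𝓝 1] fun s => √π * Real.Gamma (s - 1 / 2) / Real.Gamma s := by
  filter_upwards [isOpen_Ioi.mem_nhds (show (1 / 2 : ℝ) < 1 by norm_num)] with s hs
  have hs' : (1 / 2 : ℝ) < s := hs
  rw [eq_div_iff (Real.Gamma_pos_of_pos (by linarith)).ne', mul_comm, gamma_mul_lineIntegral hs']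

/-- **The derivative at one.** -/
theorem hasDerivAt_lineIntegral : HasDerivAt lineIntegral (-2 * π * Real.log 2) 1 := by
  have h1 : HasDerivAt (fun s : ℝ => Real.Gamma (s - 1 / 2))
      (-√π * (Real.eulerMascheroniConstant + 2 * Real.log 2)) 1 := by
    have := Real.hasDerivAt_Gamma_one_half
    rw [show (1 / 2 : ℝ) = 1 - 1 / 2 by norm_num] at this
    exact this.comp_sub_const 1 (1 / 2)
  have h2 := (h1.const_mul (√π)).div Real.hasDerivAt_Gamma_one (by rw [Real.Gamma_one]; norm_num)
  refine (h2.congr_of_eventuallyEq lineIntegral_eventuallyEq).congr_deriv ?_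
  rw [Real.Gamma_one, show (1 : ℝ) - 1 / 2 = 1 / 2 by norm_num, Real.Gamma_one_half_eq]
  have hs := Real.sq_sqrt Real.pi_nonneg
  ring_nf
  rw [hs]
  ring

end FA.KroneckerLimit

end
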