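import Fermat.Agent.KroneckerLimit.Limit

/-!
# Invariance under the modular group

The Epstein zeta function is invariant, hence so is `√y |η τ|²`; a difference of two of them tends
to the logarithm of the quotient.
-/

set_option autoImplicit false

noncomputable section

open Filter Topology Set
open scoped Real UpperHalfPlane MatrixGroups

namespace FA.KroneckerLimit

/-- `√y |η τ|²`. -/
def etaHeight (τ : ℍ) : ℝ := √τ.im * ‖ModularForm.eta τ‖ ^ 2

theorem etaHeight_pos (τ : ℍ) : 0 < etaHeight τ :=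
  mul_pos (Real.sqrt_pos.2 τ.im_pos)
    (pow_pos (norm_pos_iff.2 (ModularForm.eta_ne_zero τ.im_pos)) 2)

/-- The lattice map `(m, n) ↦ (m a + n c, m b + n d)`. -/
def latticeEquiv (g : SL(2, ℤ)) : ℤ × ℤ ≃ ℤ × ℤ where
  toFun v := (v.1 * g 0 0 + v.2 * g 1 0, v.1 * g 0 1 + v.2 * g 1 1)
  invFun w := (w.1 * g 1 1 - w.2 * g 1 0, w.2 * g 0 0 - w.1 * g 0 1)
  left_inv v := by
    have h := g.det_coe
    rw [Matrix.det_fin_two] at h
    ext
    · linear_combination v.1 * h
    · linear_combination v.2 * h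
  right_inv w := by
    have h := g.det_coe
    rw [Matrix.det_fin_two] at h
    ext
    · linear_combination w.1 * h
    · linear_combination w.2 * h

theorem epstein_smul (g : SL(2, ℤ)) (τ : ℍ) (s : ℝ) : epstein (g • τ) s = epstein τ s := by
  rw [epstein, epstein]
  conv_rhs => rw [← (latticeEquiv g).tsum_eq]
  refine tsum_congr fun v => ?_
  congr 1
  have hne : (g 1 0 : ℂ) * τ + g 1 1 ≠ 0 := by
    have := UpperHalfPlane.denom_ne_zero (Matrix.SpecialLinearGroup.mapGL ℝ g) τ
    simpa [UpperHalfPlane.denom] using this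
  have him : (g • τ).im = τ.im / Complex.normSq ((g 1 0 : ℂ) * τ + g 1 1) := by
    rw [ModularGroup.im_smul_eq_div_normSq, ModularGroup.denom_apply]
  have hcoe : ((g • τ : ℍ) : ℂ) =
      ((g 0 0 : ℂ) * τ + g 0 1) / ((g 1 0 : ℂ) * τ + g 1 1) := by
    rw [UpperHalfPlane.coe_specialLinearGroup_apply]
    simp
  rw [him, hcoe]
  simp only [latticeEquiv, Equiv.coe_fn_mk, Int.cast_add, Int.cast_mul]
  rw [show (v.1 : ℂ) * (((g 0 0 : ℂ) * τ + g 0 1) / ((g 1 0 : ℂ) * τ + g 1 1)) + v.2 =
      (((v.1 : ℂ) * g 0 0 + v.2 * g 1 0) * τ + (v.1 * g 0 1 + v.2 * g 1 1)) /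
        ((g 1 0 : ℂ) * τ + g 1 1) by
      rw [mul_div_assoc', div_add' _ _ _ hne]; congr 1; ring, map_div₀,
    div_div_div_cancel_right₀ ((Complex.normSq_pos.2 hne).ne')]

theorem tendsto_epstein_sub_epstein (τ τ' : ℍ) :
    Tendsto (fun s => epstein τ s - epstein τ' s) (𝓝[>] 1)
      (𝓝 (2 * π * Real.log (etaHeight τ' / etaHeight τ))) := by
  refine (((tendsto_epstein_sub τ).sub (tendsto_epstein_sub τ')).congr fun s => by ring).trans_eq ?_
  rw [Real.log_div (etaHeight_pos τ').ne' (etaHeight_pos τ).ne']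
  simp only [etaHeight]
  congr 1
  ring

/-- **`√y |η τ|²` is invariant under `SL(2, ℤ)`.** -/
theorem etaHeight_smul (g : SL(2, ℤ)) (τ : ℍ) : etaHeight (g • τ) = etaHeight τ := by
  have h := tendsto_nhds_unique (tendsto_epstein_sub_epstein (g • τ) τ)
    (tendsto_const_nhds.congr fun s => by rw [epstein_smul, sub_self])
  have h' : Real.log (etaHeight τ / etaHeight (g • τ)) = 0 := by
    simpa [Real.pi_ne_zero] using h
  rcases Real.log_eq_zero.1 h' with h0 | h1 | h2
  · exact absurd h0 (div_pos (etaHeight_pos τ) (etaHeight_pos _)).ne'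
  · exact ((div_eq_one_iff_eq (etaHeight_pos _).ne').1 h1).symm
  · linarith [div_pos (etaHeight_pos τ) (etaHeight_pos (g • τ))]

end FA.KroneckerLimit

end
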