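import Fermat.Agent.KroneckerLimit.Integral
import Mathlib.Analysis.Normed.Group.FunctionSeries
import Mathlib.MeasureTheory.Integral.IntervalIntegral.FundThmCalculus
import Mathlib.Analysis.SpecialFunctions.Pow.Deriv
import Mathlib.Topology.Algebra.InfiniteSum.Real

/-!
# One row of an Epstein zeta function

`rowSum a b s = ∑_{n} ((n + a)² + b²) ^ (-s)` differs from the integral `b ^ (1 - 2 s) I (s)` by at
most `s I (s) b ^ (-2 s)` and is continuous at `s = 1` from the right.
-/

set_option autoImplicit false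

noncomputable section

open MeasureTheory Set Filter Topology
open scoped Real

namespace FA.KroneckerLimit

/-- `((u + a)² + b²) ^ (-s)`. -/
def rowTerm (a b s u : ℝ) : ℝ := ((u + a) ^ 2 + b ^ 2) ^ (-s)

/-- A row. -/
def rowSum (a b s : ℝ) : ℝ := ∑' n : ℤ, rowTerm a b s n

variable {a b s : ℝ}

theorem rowBase_pos (hb : 0 < b) (u : ℝ) : 0 < (u + a) ^ 2 + b ^ 2 := by positivity

theorem rowTerm_nonneg (a b s u : ℝ) : 0 ≤ rowTerm a b s u :=
  Real.rpow_nonneg (by positivity) _

theorem rowTerm_eq (hb : 0 < b) (u : ℝ) :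
    rowTerm a b s u = b ^ (-(2 * s)) * (1 + ((u + a) / b) ^ 2) ^ (-s) := by
  rw [rowTerm, show (u + a) ^ 2 + b ^ 2 = b ^ (2 : ℝ) * (1 + ((u + a) / b) ^ 2) by
    rw [Real.rpow_two]; field_simp; ring, Real.mul_rpow (by positivity) (by positivity),
    ← Real.rpow_mul hb.le, mul_neg]

theorem integrable_rowTerm (hb : 0 < b) (hs : 1 / 2 < s) : Integrable (rowTerm a b s) := by
  refine (((((integrable_one_add_sq hs).comp_div hb.ne').comp_add_right a)).const_mul
    (b ^ (-(2 * s)))).congr (Eventually.of_forall fun u => ?_)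
  exact (rowTerm_eq hb u).symm

theorem integral_rowTerm (hb : 0 < b) :
    ∫ u, rowTerm a b s u = b ^ (1 - 2 * s) * lineIntegral s := by
  simp only [rowTerm_eq hb]
  rw [integral_const_mul, integral_add_right_eq_self (μ := volume)
    (fun u : ℝ => (1 + (u / b) ^ 2) ^ (-s)) a,
    Measure.integral_comp_div (fun u : ℝ => (1 + u ^ 2) ^ (-s)) b, abs_of_pos hb, smul_eq_mul,
    lineIntegral, show (1 : ℝ) - 2 * s = -(2 * s) + 1 by ring, Real.rpow_add hb, Real.rpow_one]
  ring

theorem hasDerivAt_rowTerm (hb : 0 < b) (u : ℝ) :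
    HasDerivAt (rowTerm a b s) (-(2 * s * (u + a) / ((u + a) ^ 2 + b ^ 2)) * rowTerm a b s u)
      u := by
  have h1 : HasDerivAt (fun v : ℝ => (v + a) ^ 2 + b ^ 2) (2 * (u + a)) u := by
    simpa using (((hasDerivAt_id u).add_const a).pow 2).add_const (b ^ 2)
  refine (h1.rpow_const (p := -s) (Or.inl (rowBase_pos hb u).ne')).congr_deriv ?_
  rw [rowTerm, Real.rpow_sub_one (rowBase_pos hb u).ne']
  ring

theorem continuous_rowTerm (hb : 0 < b) : Continuous (rowTerm a b s) :=
  continuous_iff_continuousAt.2 fun u => (hasDerivAt_rowTerm hb u).continuousAt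

theorem norm_rowTerm_deriv_le (hb : 0 < b) (hs : 0 ≤ s) (u : ℝ) :
    ‖-(2 * s * (u + a) / ((u + a) ^ 2 + b ^ 2)) * rowTerm a b s u‖ ≤
      s / b * rowTerm a b s u := by
  rw [norm_mul, norm_neg, Real.norm_of_nonneg (rowTerm_nonneg a b s u)]
  refine mul_le_mul_of_nonneg_right ?_ (rowTerm_nonneg a b s u)
  rw [Real.norm_eq_abs, abs_div, abs_of_pos (rowBase_pos hb u), abs_mul,
    abs_of_nonneg (by positivity : (0 : ℝ) ≤ 2 * s), div_le_div_iff₀ (rowBase_pos hb u) hb]
  have h : 2 * |u + a| * b ≤ (u + a) ^ 2 + b ^ 2 := by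
    rw [← sq_abs (u + a)]
    nlinarith [sq_nonneg (|u + a| - b)]
  nlinarith [mul_le_mul_of_nonneg_left h hs]

/-- **A term against its interval.** -/
theorem abs_rowTerm_sub_integral_le (hb : 0 < b) (hs : 1 / 2 < s) (n : ℤ) :
    |rowTerm a b s n - ∫ u in (n : ℝ)..(n : ℝ) + 1, rowTerm a b s u| ≤
      s / b * ∫ u in (n : ℝ)..(n : ℝ) + 1, rowTerm a b s u := by
  set g := rowTerm a b s with hg
  set g' : ℝ → ℝ := fun u => -(2 * s * (u + a) / ((u + a) ^ 2 + b ^ 2)) * g u with hg'
  have hgc : Continuous g := continuous_rowTerm hb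
  have hg'c : Continuous g' :=
    (((continuous_const.mul (continuous_id.add continuous_const)).div (by fun_prop)
      fun u => (rowBase_pos hb u).ne').neg).mul hgc
  set J := ∫ u in (n : ℝ)..(n : ℝ) + 1, g u
  have hint : ∀ c d : ℝ, IntervalIntegrable g volume c d := fun c d => hgc.intervalIntegrable c d
  have hpt : ∀ u ∈ Icc (n : ℝ) ((n : ℝ) + 1), |g n - g u| ≤ s / b * J := by
    intro u hu
    rw [abs_sub_comm, ← intervalIntegral.integral_eq_sub_of_hasDerivAt
      (fun v _ => hasDerivAt_rowTerm hb v) (hg'c.intervalIntegrable _ _)]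
    refine (intervalIntegral.norm_integral_le_of_norm_le hu.1 (g := fun v => s / b * g v)
      (Eventually.of_forall fun v _ => norm_rowTerm_deriv_le hb (by linarith) v)
      ((hint _ _).const_mul _)).trans ?_
    rw [intervalIntegral.integral_const_mul]
    refine mul_le_mul_of_nonneg_left ?_ (by positivity)
    exact intervalIntegral.integral_mono_interval le_rfl hu.1 hu.2
      (Eventually.of_forall fun v => rowTerm_nonneg a b s v) (hint _ _)
  have h := intervalIntegral.norm_integral_le_of_norm_le_const (C := s / b * J)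
    (f := fun u => g n - g u) (a := (n : ℝ)) (b := (n : ℝ) + 1) (fun u hu => by
      rw [uIoc_of_le (by linarith)] at hu
      exact hpt u (Ioc_subset_Icc_self hu))
  rw [intervalIntegral.integral_sub intervalIntegrable_const (hint _ _),
    intervalIntegral.integral_const, add_sub_cancel_left, one_smul, abs_one, mul_one,
    Real.norm_eq_abs] at h
  exact h

theorem hasSum_rowIntegrals (hb : 0 < b) (hs : 1 / 2 < s) :
    HasSum (fun n : ℤ => ∫ u in (n : ℝ)..(n : ℝ) + 1, rowTerm a b s u)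
      (b ^ (1 - 2 * s) * lineIntegral s) := by
  have h := (integrable_rowTerm (a := a) hb hs).hasSum_intervalIntegral 0
  rw [integral_rowTerm hb] at h
  simpa [zero_add] using h

theorem summable_rowTerm (hb : 0 < b) (hs : 1 / 2 < s) :
    Summable fun n : ℤ => rowTerm a b s n := by
  refine Summable.of_nonneg_of_le (fun n => rowTerm_nonneg _ _ _ _) (fun n => ?_)
    ((hasSum_rowIntegrals (a := a) hb hs).summable.mul_left (1 + s / b))
  have := (abs_le.1 (abs_rowTerm_sub_integral_le (a := a) hb hs n)).2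
  linarith

/-- **A row against its integral.** -/
theorem abs_rowSum_sub_le (hb : 0 < b) (hs : 1 / 2 < s) :
    |rowSum a b s - b ^ (1 - 2 * s) * lineIntegral s| ≤ s * lineIntegral s * b ^ (-(2 * s)) := by
  have hJ := hasSum_rowIntegrals (a := a) hb hs
  have hd := (summable_rowTerm (a := a) hb hs).hasSum.sub hJ
  rw [← Real.norm_eq_abs, rowSum, ← hd.tsum_eq]
  refine (tsum_of_norm_bounded (hJ.mul_left (s / b))
    fun n => abs_rowTerm_sub_integral_le (a := a) hb hs n).trans_eq ?_
  rw [show (1 : ℝ) - 2 * s = -(2 * s) + 1 by ring, Real.rpow_add hb, Real.rpow_one]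
  field_simp

theorem rowSum_nonneg (a b s : ℝ) : 0 ≤ rowSum a b s := tsum_nonneg fun _ => rowTerm_nonneg _ _ _ _

theorem rowSum_le (hb : 0 < b) (hs : 1 / 2 < s) :
    rowSum a b s ≤ (1 + s / b) * (b ^ (1 - 2 * s) * lineIntegral s) := by
  rw [rowSum, ← ((hasSum_rowIntegrals (a := a) hb hs).mul_left (1 + s / b)).tsum_eq]
  refine (summable_rowTerm hb hs).tsum_le_tsum (fun n => ?_)
    ((hasSum_rowIntegrals hb hs).summable.mul_left _)
  have := (abs_le.1 (abs_rowTerm_sub_integral_le (a := a) hb hs n)).2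
  linarith

/-- **Continuity of a row at one.** -/
theorem tendsto_rowSum (hb : 0 < b) :
    Tendsto (rowSum a b) (𝓝[>] 1) (𝓝 (rowSum a b 1)) := by
  have hc : ContinuousOn (rowSum a b) (Icc 1 2) := by
    refine continuousOn_tsum
      (fun n => continuousOn_const.rpow continuousOn_id.neg fun _ _ =>
        Or.inl (rowBase_pos hb _).ne')
      ((summable_rowTerm (a := a) hb (by norm_num : (1 : ℝ) / 2 < 1)).mul_right (max 1 ((b ^ 2)⁻¹)))
      fun n t ht => ?_
    have hpos := rowBase_pos (a := a) hb (n : ℝ)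
    have e : rowTerm a b t n = rowTerm a b 1 n * ((n + a) ^ 2 + b ^ 2) ^ (-(t - 1)) := by
      rw [rowTerm, rowTerm, ← Real.rpow_add hpos]
      ring_nf
    change ‖rowTerm a b t n‖ ≤ _
    rw [Real.norm_of_nonneg (rowTerm_nonneg _ _ _ _), e]
    refine mul_le_mul_of_nonneg_left ?_ (rowTerm_nonneg _ _ _ _)
    have ht0 : 0 ≤ t - 1 := by linarith [ht.1]
    calc ((n + a) ^ 2 + b ^ 2) ^ (-(t - 1)) ≤ (b ^ 2) ^ (-(t - 1)) :=
          Real.rpow_le_rpow_of_nonpos (by positivity) (le_add_of_nonneg_left (sq_nonneg _))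
            (by linarith)
      _ = ((b ^ 2)⁻¹) ^ (t - 1) := by rw [Real.inv_rpow (sq_nonneg b), Real.rpow_neg (sq_nonneg b)]
      _ ≤ (max 1 ((b ^ 2)⁻¹)) ^ (t - 1) :=
          Real.rpow_le_rpow (by positivity) (le_max_right _ _) ht0
      _ ≤ (max 1 ((b ^ 2)⁻¹)) ^ (1 : ℝ) :=
          Real.rpow_le_rpow_of_exponent_le (le_max_left _ _) (by linarith [ht.2])
      _ = _ := Real.rpow_one _
  refine (hc 1 (left_mem_Icc.2 one_le_two)).mono_left ?_
  exact nhdsWithin_le_of_mem (Icc_mem_nhdsGT one_lt_two)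

end FA.KroneckerLimit

end
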